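/-
S33 / S44, block DEEP (owner helper165): deep congruences `f ≡ 1 mod d` for the Gauss valuation of
`ℚ̄((q))` attached to a valuation subring `A` of `ℚ̄`.  Series level calculus.
-/
import Fermat.Agent.C1.Red.Ops
import Fermat.Agent.C1.Red.Basic

set_option autoImplicit false

noncomputable section

namespace Fermat.Agent.S33.New

open ModularCurve Fermat.Agent.S24 Fermat.Agent.S24.B Fermat.Agent.GAL Fermat.Agent.GAL.E
  Fermat.Agent.C1

variable {A : ValuationSubring Kbar} {d d' c : Kbar} {f g : LaurentSeries Kbar}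
  {r : LaurentSeries (IsLocalRing.ResidueField A)}

/-- `f ≡ 1 mod d` for the Gauss valuation: `f - 1 = d P / Q` with `A`-integral series `P`, `Q`,
`Q` with nonzero reduction. -/
def CongD (A : ValuationSubring Kbar) (d : Kbar) (f : LaurentSeries Kbar) : Prop :=
  ∃ P Q : LaurentSeries A, red A Q ≠ 0 ∧ (f - 1) * incl A Q = HahnSeries.C d * incl A P

theorem CongD.one (A : ValuationSubring Kbar) (d : Kbar) : CongD A d 1 :=
  ⟨0, 1, by rw [map_one]; exact one_ne_zero, by rw [sub_self, zero_mul, map_zero, mul_zero]⟩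

/-- weaken the modulus -/
theorem CongD.mono (h : CongD A d f) (e : A) (he : d = d' * (e : Kbar)) : CongD A d' f := by
  obtain ⟨P, Q, hQ, h1⟩ := h
  refine ⟨HahnSeries.C e * P, Q, hQ, ?_⟩
  rw [h1, he, map_mul, map_mul, incl_C, mul_assoc]

theorem CongD.mul (hd : d ∈ A) (hf : CongD A d f) (hg : CongD A d g) : CongD A d (f * g) := by
  obtain ⟨P, Q, hQ, h1⟩ := hf
  obtain ⟨P', Q', hQ', h1'⟩ := hg
  refine ⟨HahnSeries.C (⟨d, hd⟩ : A) * P * P' + P * Q' + P' * Q, Q * Q', ?_, ?_⟩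
  · rw [map_mul]; exact mul_ne_zero hQ hQ'
  · simp only [map_add, map_mul, incl_C]
    calc (f * g - 1) * (incl A Q * incl A Q')
        = ((f - 1) * incl A Q) * ((g - 1) * incl A Q') + ((f - 1) * incl A Q) * incl A Q' +
          ((g - 1) * incl A Q') * incl A Q := by ring
      _ = _ := by rw [h1, h1']; ring

/-- the numerator `Q + d P` of `f` -/
private theorem CongD.aux (hd : d ∈ A.nonunits) {P Q : LaurentSeries A}
    (h1 : (f - 1) * incl A Q = HahnSeries.C d * incl A P) :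
    red A (Q + HahnSeries.C (⟨d, ValuationSubring.nonunits_subset hd⟩ : A) * P) = red A Q ∧
      incl A (Q + HahnSeries.C (⟨d, ValuationSubring.nonunits_subset hd⟩ : A) * P) =
        f * incl A Q := by
  obtain ⟨hdA, hdm⟩ := ValuationSubring.mem_nonunits_iff_exists_mem_maximalIdeal.1 hd
  have hres : IsLocalRing.residue A (⟨d, hdA⟩ : A) = 0 :=
    (IsLocalRing.residue_eq_zero_iff _).2 hdm
  constructor
  · rw [map_add, map_mul, red_C, hres, map_zero, zero_mul, add_zero]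
  · rw [map_add, map_mul, incl_C, ← h1]
    ring

/-- `f = (Q + d P) / Q` and `red (Q + d P) = red Q ≠ 0`. -/
theorem CongD.redS_one (hd : d ∈ A.nonunits) (hf : CongD A d f) : RedS A f 1 1 := by
  obtain ⟨P, Q, hQ, h1⟩ := hf
  obtain ⟨h2, h3⟩ := CongD.aux hd h1
  refine ⟨one_ne_zero, Q + HahnSeries.C (⟨d, ValuationSubring.nonunits_subset hd⟩ : A) * P, Q,
    ?_, hQ, ?_, ?_⟩
  · rw [h2]; exact hQ
  · rw [h3, map_one, one_mul]
  · rw [h2, one_mul]

theorem CongD.ne_zero (hd : d ∈ A.nonunits) (hf : CongD A d f) : f ≠ 0 :=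
  RedS.ne_zero (hf.redS_one hd)

/-- `f⁻¹ - 1 = - d P / (Q + d P)`. -/
theorem CongD.inv (hd : d ∈ A.nonunits) (hf : CongD A d f) : CongD A d f⁻¹ := by
  have hf0 := hf.ne_zero hd
  obtain ⟨P, Q, hQ, h1⟩ := hf
  obtain ⟨h2, h3⟩ := CongD.aux hd h1
  refine ⟨-P, Q + HahnSeries.C (⟨d, ValuationSubring.nonunits_subset hd⟩ : A) * P, ?_, ?_⟩
  · rw [h2]; exact hQ
  · rw [h3, map_neg, mul_neg, ← h1, ← mul_assoc, sub_mul, inv_mul_cancel₀ hf0]
    ring

theorem CongD.div (hd : d ∈ A.nonunits) (hf : CongD A d f) (hg : CongD A d g) :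
    CongD A d (f / g) := by
  rw [div_eq_mul_inv]
  exact hf.mul (ValuationSubring.nonunits_subset hd) (hg.inv hd)

theorem CongD.pow (hd : d ∈ A) (hf : CongD A d f) (m : ℕ) : CongD A d (f ^ m) := by
  induction m with
  | zero => rw [pow_zero]; exact CongD.one A d
  | succ m ih => rw [pow_succ]; exact ih.mul hd hf

theorem CongD.map_qExpand (hf : CongD A d f) (m : ℕ) [NeZero m] :
    CongD A d (qExpand Kbar m f) := by
  obtain ⟨P, Q, hQ, h1⟩ := hf
  refine ⟨qExpand A m P, qExpand A m Q, ?_, ?_⟩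
  · rw [HeckeBasic.coeffMap_qExpand]
    exact fun h0 => hQ (qExpand_injective' m (by rw [h0, map_zero]))
  · rw [HeckeBasic.coeffMap_qExpand, HeckeBasic.coeffMap_qExpand, ← qExpand_C m d, ← map_mul, ← h1,
      map_mul, map_sub, map_one]

/-- `v(f) ≥ v(d)` ⇒ `1 + f ≡ 1 mod d`. -/
theorem CongD.of_redS (h : RedS A f c r) (e : A) (he : c = d * (e : Kbar)) :
    CongD A d (1 + f) := by
  obtain ⟨-, P, Q, -, hQ, h1, -⟩ := h
  refine ⟨HahnSeries.C e * P, Q, hQ, ?_⟩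
  rw [add_sub_cancel_left, h1, he, map_mul, map_mul, incl_C, mul_assoc]

/-- Gauss lemma: `f ≡ 1 mod d` and `v(f - 1) = v(c)` ⇒ `d ∣ c` in `A`
(as in `RedS.unique`: `d P Q' = c P' Q` with `red (P' Q) ≠ 0`; if `c / d ∉ A` then `d / c` is a
nonunit of `A` and `P' Q = (d / c) P Q'` has reduction `0`). -/
theorem CongD.dvd_of_redS (hd0 : d ≠ 0) (hf : CongD A d f) (h : RedS A (f - 1) c r) :
    ∃ e : A, c = d * (e : Kbar) := by
  obtain ⟨P, Q, hQ, h1⟩ := hf
  obtain ⟨hc, P', Q', hP', hQ', h1', -⟩ := h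
  have hC : (HahnSeries.C c : LaurentSeries Kbar) ≠ 0 := hahnC_ne_zero hc
  have hV : red A (P' * Q) ≠ 0 := by rw [map_mul]; exact mul_ne_zero hP' hQ
  have hrel : HahnSeries.C d * incl A (P * Q') = HahnSeries.C c * incl A (P' * Q) := by
    rw [map_mul, map_mul, ← mul_assoc, ← h1, ← mul_assoc, ← h1']
    ring
  rcases A.mem_or_inv_mem (c / d) with ha | ha
  · exact ⟨⟨c / d, ha⟩, by rw [mul_div_cancel₀ _ hd0]⟩
  · have h3 : HahnSeries.C (c / d)⁻¹ * incl A (P * Q') = incl A (P' * Q) := by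
      rw [inv_div, map_div₀, div_mul_eq_mul_div, hrel, mul_div_cancel_left₀ _ hC]
    obtain ⟨⟨u, hu⟩, -⟩ := isUnit_of_C_mul_incl (⟨(c / d)⁻¹, ha⟩ : A) hV h3
    have hmul : ((u⁻¹ : Aˣ) : A) * (⟨(c / d)⁻¹, ha⟩ : A) = 1 := by
      rw [← hu]; exact u.inv_mul
    have h6 : (((u⁻¹ : Aˣ) : A) : Kbar) * (c / d)⁻¹ = 1 := congrArg (Subtype.val : A → Kbar) hmul
    refine ⟨((u⁻¹ : Aˣ) : A), ?_⟩
    rw [eq_of_mul_inv_eq_one h6, mul_div_cancel₀ _ hd0]

end Fermat.Agent.S33.New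

end
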