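/-
S33 / S44, block DEEP (owner helper165): deep congruences for elements of the function fields `FN N`.
-/
import Fermat.Agent.S33.New.CongD
import Fermat.Agent.C1.Red.Field

set_option autoImplicit false

noncomputable section

namespace Fermat.Agent.S33.New

open ModularCurve Fermat.Agent.S24 Fermat.Agent.S24.B Fermat.Agent.GAL Fermat.Agent.GAL.E
  Fermat.Agent.C1

variable {A : ValuationSubring Kbar} {q : ℕ} {d : Kbar} {N : ℕ}

/-- `u ≡ 1` ⇒ `u ≡ 1 mod d` for some nonzero nonunit `d`.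
(`u = 1`: `d = q`.  Otherwise `exists_redS` for `u - 1` gives `(c, r)`; `u = P / Q` with
`red P = red Q`, so `incl (P - Q) = (u - 1) * incl Q` has `RedS _ c _` (`RedS.mul`,
`RedS.of_integral`) and `RedS.mem_nonunits` gives `c ∈ A.nonunits`; `CongD.of_redS` with `e = 1`.) -/
theorem exists_congD_of_cong1 (hq : q.Prime) (hA : A.LiesOverPrime q) {u : FN N}
    (h : Cong1 A N u) : ∃ d ∈ A.nonunits, d ≠ 0 ∧ CongD A d (u : LaurentSeries Kbar) := by
  by_cases hu : u = 1
  · subst hu
    exact ⟨(q : Kbar), hA, Nat.cast_ne_zero.2 hq.ne_zero, CongD.one A _⟩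
  · obtain ⟨c, r, hcr⟩ := exists_redS hq hA (u - 1) (sub_ne_zero.2 hu)
    have hcoe : ((u - 1 : FN N) : LaurentSeries Kbar) = (u : LaurentSeries Kbar) - 1 := rfl
    rw [hcoe] at hcr
    obtain ⟨P, Q, hP, hQ, hPQ, hQ0, hu'⟩ := h
    have h1 : incl A (P - Q) = ((u : LaurentSeries Kbar) - 1) * incl A Q := by
      rw [hu', RedField.coe_div, sub_mul, one_mul, map_sub]
      congr 1
      exact (div_mul_cancel₀ _ (RedField.incl_ne_zero hQ0)).symm
    have h2 := (hcr.mul (RedS.of_integral Q hQ0)).mem_nonunits (P - Q) h1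
      (by rw [map_sub, hPQ, sub_self])
    rw [mul_one] at h2
    refine ⟨c, h2, hcr.1, ?_⟩
    have h3 := CongD.of_redS (d := c) hcr 1 (by simp)
    rwa [add_sub_cancel] at h3

theorem cong1_of_congD (hq : q.Prime) (hA : A.LiesOverPrime q) (hd : d ∈ A.nonunits) {u : FN N}
    (h : CongD A d (u : LaurentSeries Kbar)) : Cong1 A N u :=
  cong1_of_redS hq hA (h.redS_one hd)

/-- descent along `q ↦ q ^ m` (`u = 1` trivial; otherwise `exists_redS` for `u - 1`,
`RedS.map_qExpand`, `CongD.dvd_of_redS`, `CongD.of_redS`). -/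
theorem CongD.of_qExpand (hq : q.Prime) (hA : A.LiesOverPrime q) (hd0 : d ≠ 0) (u : FN N) (m : ℕ)
    [NeZero m] (h : CongD A d (qExpand Kbar m (u : LaurentSeries Kbar))) :
    CongD A d (u : LaurentSeries Kbar) := by
  by_cases hu : u = 1
  · subst hu
    exact CongD.one A d
  · obtain ⟨c, r, hcr⟩ := exists_redS hq hA (u - 1) (sub_ne_zero.2 hu)
    have hcoe : ((u - 1 : FN N) : LaurentSeries Kbar) = (u : LaurentSeries Kbar) - 1 := rfl
    rw [hcoe] at hcr
    have h1 := hcr.map_qExpand m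
    rw [map_sub, map_one] at h1
    obtain ⟨e, he⟩ := h.dvd_of_redS hd0 h1
    have h3 := CongD.of_redS hcr e he
    rwa [add_sub_cancel] at h3

end Fermat.Agent.S33.New

end
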