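/-
S33 / S44, block DEEP (owner helper165): deep weak approximation for the two valuations `v_∞` and
`v_0 = v_∞ ∘ w` of `FN (M q)`.
-/
import Fermat.Agent.S33.New.CongDField
import Fermat.Agent.C1.Approx

set_option autoImplicit false

noncomputable section

namespace Fermat.Agent.S33.New

open ModularCurve Fermat.Agent.S24 Fermat.Agent.S24.B Fermat.Agent.GAL Fermat.Agent.GAL.E
  Fermat.Agent.C1

/-- `(1 + a) / (1 + b) ≡ 1 mod d` if `v(a) ≥ v(d)` and `v(b) ≥ v(d)`. -/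
theorem congD_one_add_div {A : ValuationSubring Kbar} {d : Kbar} (hd : d ∈ A.nonunits)
    {a b : LaurentSeries Kbar} {ca cb : Kbar}
    {ra rb : LaurentSeries (IsLocalRing.ResidueField A)}
    (ha : RedS A a ca ra) (ea : A) (hea : ca = d * (ea : Kbar))
    (hb : RedS A b cb rb) (eb : A) (heb : cb = d * (eb : Kbar)) :
    CongD A d ((1 + a) / (1 + b)) :=
  CongD.div hd (CongD.of_redS ha ea hea) (CongD.of_redS hb eb heb)

variable {M q : ℕ} [NeZero M] [NeZero q]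

/-- Deep version of `C1.exists_approx` (same proof, same `h'`; choose the exponent `m` such that
the three constants are divisible by `d`: `exists_pow_mul_mem_nonunits` with `c / d`, `1 / d`,
`c'⁻¹ / d`; `(1 + a) / (1 + b) ≡ 1 mod d` by `CongD.of_redS`, `CongD.div`). -/
theorem exists_approx_deep (D : ALData M q) {A : ValuationSubring Kbar} (hq : q.Prime)
    (hA : A.LiesOverPrime q) (h : FN (M * q)) (hh : h ≠ 0) (d : Kbar) (hd : d ∈ A.nonunits)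
    (hd0 : d ≠ 0) :
    ∃ h' : FN (M * q), h' ≠ 0 ∧ CongD A d (h' : LaurentSeries Kbar) ∧
      CongD A d ((D.w (h' / h) : FN (M * q)) : LaurentSeries Kbar) := by
  obtain ⟨g, π, r, r', hπ, hg, hwg⟩ := exists_sep D hq hA
  have hwh : D.w h ≠ 0 := (map_ne_zero_iff _ D.w_injective).mpr hh
  obtain ⟨c, ρ, hc⟩ := exists_redS hq hA h hh
  obtain ⟨c', ρ', hc'⟩ := exists_redS hq hA (D.w h) hwh
  obtain ⟨m₁, hm₁⟩ := exists_pow_mul_mem_nonunits hq hA π hπ (c / d)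
  obtain ⟨m₂, hm₂⟩ := exists_pow_mul_mem_nonunits hq hA π hπ (1 / d)
  obtain ⟨m₃, hm₃⟩ := exists_pow_mul_mem_nonunits hq hA π hπ (c'⁻¹ / d)
  obtain ⟨m₄, hm₄⟩ := exists_pow_mul_mem_nonunits hq hA π hπ 1
  obtain ⟨m, h₁, h₂, h₃, h₄⟩ : ∃ m : ℕ, m₁ ≤ m ∧ m₂ ≤ m ∧ m₃ ≤ m ∧ m₄ ≤ m :=
    ⟨m₁ + m₂ + m₃ + m₄, by omega, by omega, by omega, by omega⟩
  have hπm : π ^ m ∈ A.nonunits := by
    have := hm₄ m h₄
    rwa [one_mul] at this
  have hsub : ∀ z : Kbar, z ∈ A.nonunits → z ∈ A := fun z hz =>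
    (A.valuation_le_one_iff z).mp (A.mem_nonunits_iff.mp hz).le
  -- the four normalisations
  have a₁ : RedS A ((h * g ^ m : FN (M * q)) : LaurentSeries Kbar) (c * π ^ m) (ρ * r ^ m) :=
    hc.mul (hg.pow m)
  have b₁ : RedS A ((g ^ m : FN (M * q)) : LaurentSeries Kbar) (π ^ m) (r ^ m) := hg.pow m
  have a₂ : RedS A (((D.w h)⁻¹ * (D.w g)⁻¹ ^ m : FN (M * q)) : LaurentSeries Kbar)
      (c'⁻¹ * π ^ m) (ρ'⁻¹ * r'⁻¹ ^ m) := by
    have := hc'.inv.mul (hwg.inv.pow m)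
    rwa [inv_inv] at this
  have b₂ : RedS A (((D.w g)⁻¹ ^ m : FN (M * q)) : LaurentSeries Kbar) (π ^ m) (r'⁻¹ ^ m) := by
    have := hwg.inv.pow m
    rwa [inv_inv] at this
  have e₁ : c * π ^ m = d * (c / d * π ^ m) := by field_simp
  have e₂ : π ^ m = d * (1 / d * π ^ m) := by field_simp
  have e₃ : c'⁻¹ * π ^ m = d * (c'⁻¹ / d * π ^ m) := by field_simp
  have C₁ : CongD A d (((1 + h * g ^ m) / (1 + g ^ m) : FN (M * q)) : LaurentSeries Kbar) :=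
    congD_one_add_div hd a₁ ⟨_, hsub _ (hm₁ m h₁)⟩ e₁ b₁ ⟨_, hsub _ (hm₂ m h₂)⟩ e₂
  have C₂ : CongD A d (((1 + (D.w h)⁻¹ * (D.w g)⁻¹ ^ m) / (1 + (D.w g)⁻¹ ^ m) : FN (M * q)) :
      LaurentSeries Kbar) :=
    congD_one_add_div hd a₂ ⟨_, hsub _ (hm₃ m h₃)⟩ e₃ b₂ ⟨_, hsub _ (hm₂ m h₂)⟩ e₂
  refine ⟨(1 + h * g ^ m) / (1 + g ^ m), ?_, C₁, ?_⟩
  · intro h0
    exact (C₁.ne_zero hd) (congrArg (fun z : FN (M * q) => (z : LaurentSeries Kbar)) h0)
  have hg0 : g ≠ 0 := by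
    rintro rfl
    exact hg.ne_zero rfl
  have hwg0 : D.w g ≠ 0 := (map_ne_zero_iff _ D.w_injective).mpr hg0
  have hd₁ : (1 + g ^ m : FN (M * q)) ≠ 0 := by
    intro h0
    exact (b₁.one_add hπm).ne_zero (congrArg (fun z : FN (M * q) => (z : LaurentSeries Kbar)) h0)
  have hd₁' : 1 + D.w g ^ m ≠ 0 := by
    have := (map_ne_zero_iff _ D.w_injective).mpr hd₁
    rwa [map_add, map_one, map_pow] at this
  have hd₂ : (1 + (D.w g)⁻¹ ^ m : FN (M * q)) ≠ 0 := by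
    intro h0
    exact (b₂.one_add hπm).ne_zero (congrArg (fun z : FN (M * q) => (z : LaurentSeries Kbar)) h0)
  have key : D.w ((1 + h * g ^ m) / (1 + g ^ m) / h) =
      (1 + (D.w h)⁻¹ * (D.w g)⁻¹ ^ m) / (1 + (D.w g)⁻¹ ^ m) := by
    rw [map_div₀, map_div₀, map_add, map_add, map_mul, map_pow, map_one]
    rw [inv_pow] at hd₂ ⊢
    have hgm : D.w g ^ m ≠ 0 := pow_ne_zero m hwg0
    rw [div_div, div_eq_div_iff (mul_ne_zero hd₁' hwh) hd₂]
    field_simp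
    ring
  rw [key]
  exact C₂

end Fermat.Agent.S33.New

end
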