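/-
S33 / S44, block DEEP (owner helper165): the multiplicative `U_p` improves congruences.
-/
import Fermat.Agent.S33.New.CongD

set_option autoImplicit false

noncomputable section

namespace Fermat.Agent.S33.New

open ModularCurve Fermat.Agent.S24 Fermat.Agent.S24.B Fermat.Agent.GAL Fermat.Agent.GAL.E
  Fermat.Agent.C1

/-- abstract expansion of `∏ (X i + δ Y i)` up to order `δ ^ 2`. -/
theorem prod_twist_expand {R ι : Type*} [CommRing R] [DecidableEq ι] (s : Finset ι)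
    (X Y : ι → R) (δ : R) :
    ∃ Z : R, ∏ i ∈ s, (X i + δ * Y i) =
      ∏ i ∈ s, X i + δ * ∑ i ∈ s, Y i * ∏ j ∈ s.erase i, X j + δ ^ 2 * Z := by
  induction s using Finset.induction_on with
  | empty => exact ⟨0, by simp⟩
  | insert a s ha ih =>
    obtain ⟨Z, hZ⟩ := ih
    refine ⟨X a * Z + Y a * (∑ i ∈ s, Y i * ∏ j ∈ s.erase i, X j) + δ * Y a * Z, ?_⟩
    rw [Finset.prod_insert ha, Finset.prod_insert ha, Finset.sum_insert ha,
      Finset.erase_insert ha, hZ]
    have h1 : ∑ i ∈ s, Y i * ∏ j ∈ (insert a s).erase i, X j =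
        X a * ∑ i ∈ s, Y i * ∏ j ∈ s.erase i, X j := by
      rw [Finset.mul_sum]
      refine Finset.sum_congr rfl fun i hi => ?_
      have hia : a ≠ i := fun h => ha (h ▸ hi)
      rw [Finset.erase_insert_of_ne hia,
        Finset.prod_insert (fun h => ha (Finset.mem_of_mem_erase h))]
      ring
    rw [h1]
    ring

/-- the norm `∏_j g(ζ^j q)` is invariant under `q ↦ ζ^b q`. -/
theorem prod_twist_norm_invariant {ζ : Kbarˣ} {q : ℕ} (hζ : ζ ^ q = 1) (g : LaurentSeries Kbar)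
    (hg : g ≠ 0) (b : ℕ) :
    twist (ζ ^ b) (∏ j ∈ Finset.range q, twist (ζ ^ j) g) =
      ∏ j ∈ Finset.range q, twist (ζ ^ j) g := by
  have h1 : twist ζ (∏ j ∈ Finset.range q, twist (ζ ^ j) g) =
      ∏ j ∈ Finset.range q, twist (ζ ^ j) g := by
    rw [map_prod]
    have h2 : ∀ j ∈ Finset.range q, twist ζ (twist (ζ ^ j) g) = twist (ζ ^ (j + 1)) g := by
      intro j _
      rw [twist_twist, pow_succ']
    rw [Finset.prod_congr rfl h2]
    have h3 := Finset.prod_range_succ' (fun j => twist (ζ ^ j) g) q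
    rw [Finset.prod_range_succ, hζ, pow_zero] at h3
    have h0 : twist (1 : Kbarˣ) g ≠ 0 := fun h => hg ((twist_eq_zero_iff _ _).1 h)
    exact (mul_right_cancel₀ h0 h3).symm
  induction b with
  | zero => rw [pow_zero, twist_one]
  | succ b ih => rw [pow_succ', ← twist_twist, ih, h1]

/-- the coefficients of the trace `∑_b W(ζ^b q)`. -/
theorem prod_twist_trace_coeff {ζ : Kbarˣ} {q : ℕ} (hζ : ζ ^ q = 1) (W : LaurentSeries Kbar)
    (n : ℤ) [Decidable (ζ ^ n = 1)] :
    (∑ b ∈ Finset.range q, twist (ζ ^ b) W).coeff n =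
      if ζ ^ n = 1 then (q : Kbar) * W.coeff n else 0 := by
  rw [HahnSeries.coeff_sum]
  simp only [twist_coeff]
  rw [← Finset.sum_mul]
  have h1 : ∀ b ∈ Finset.range q, ((((ζ ^ b) ^ n : Kbarˣ)) : Kbar) = ((ζ ^ n : Kbarˣ) : Kbar) ^ b := by
    intro b _
    rw [← Units.val_pow_eq_pow_val, ← zpow_natCast, ← zpow_natCast, ← zpow_mul, ← zpow_mul,
      mul_comm]
  rw [Finset.sum_congr rfl h1]
  split_ifs with h
  · rw [h]
    simp
  · have h2 : ((ζ ^ n : Kbarˣ) : Kbar) - 1 ≠ 0 := by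
      intro h0
      apply h
      apply Units.ext
      rw [Units.val_one]
      exact sub_eq_zero.1 h0
    have h3 := mul_geom_sum ((ζ ^ n : Kbarˣ) : Kbar) q
    have h4 : ((ζ ^ n : Kbarˣ) : Kbar) ^ q = 1 := by
      rw [← Units.val_pow_eq_pow_val, ← zpow_natCast, ← zpow_mul, mul_comm, zpow_mul, zpow_natCast,
        hζ, one_zpow, Units.val_one]
    rw [h4, sub_self] at h3
    rw [(mul_eq_zero.1 h3).resolve_left h2, zero_mul]

variable {A : ValuationSubring Kbar} {q : ℕ} [NeZero q] {d d' : Kbar} {f : LaurentSeries Kbar}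

/-- `f ≡ 1 mod d`, `d' ∣ d`, `d' ∣ q` ⇒ `∏_b f(ζ^b q) ≡ 1 mod d d'`.
Proof.  `f = (Q + d P) / Q`.  With `X_b = twist (ζ^b) X` (integral: `C1.Ops.twA`, `incl_twA`,
`exists_unit_of_pow_eq_one`): `∏_b (Q_b + d P_b) - ∏_b Q_b = d Σ_b P_b ∏_{b' ≠ b} Q_{b'} + d² (…)`
(`Finset.prod_add` or induction), the linear term is `Σ_b twist (ζ^b) (P ∏_{b' ≠ 0} Q_{b'})`, and
`Σ_b twist (ζ^b) Y` has `n`-th coefficient `y_n Σ_b ζ^(b n) ∈ q A`.  `∏_b Q_b` has nonzero reduction
(`red_twA`, `twist_eq_zero_iff`). -/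
theorem CongD.prod_twist (hq : q.Prime) (hA : A.LiesOverPrime q) (hd : d ∈ A) (e₁ e₂ : A)
    (h₁ : d = d' * (e₁ : Kbar)) (h₂ : (q : Kbar) = d' * (e₂ : Kbar)) (hf : CongD A d f) :
    CongD A (d * d') (∏ b ∈ Finset.range q, twist (zetaK q ^ b) f) := by
  classical
  obtain ⟨P, Q, hQ, h1⟩ := hf
  have hζq : zetaK q ^ q = 1 := (isPrimitiveRoot_zetaK q).pow_eq_one
  obtain ⟨z, hz⟩ := exists_unit_of_pow_eq_one A (zetaK q) q (NeZero.ne q) hζq
  obtain ⟨ζ, hζ⟩ : ∃ ζ : Kbarˣ, ζ = zetaK q := ⟨_, rfl⟩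
  rw [← hζ] at hζq hz ⊢
  have hq0 : 0 ∈ Finset.range q := Finset.mem_range.2 (Nat.pos_of_ne_zero (NeZero.ne q))
  have hzb : ∀ b : ℕ, (((z ^ b : Aˣ) : A) : Kbar) = ((ζ ^ b : Kbarˣ) : Kbar) := by
    intro b
    rw [Units.val_pow_eq_pow_val, Units.val_pow_eq_pow_val, ← hz]
    rfl
  have hQ0 : incl A Q ≠ 0 := incl_ne_zero_of_red_ne_zero hQ
  obtain ⟨X, hXdef⟩ : ∃ X : ℕ → LaurentSeries A, X = fun b => Ops.twA (z ^ b) Q := ⟨_, rfl⟩
  obtain ⟨Y, hYdef⟩ : ∃ Y : ℕ → LaurentSeries A, Y = fun b => Ops.twA (z ^ b) P := ⟨_, rfl⟩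
  have hX : ∀ b, incl A (X b) = twist (ζ ^ b) (incl A Q) := fun b => by
    rw [hXdef]
    exact Ops.incl_twA _ _ (hzb b) Q
  have hY : ∀ b, incl A (Y b) = twist (ζ ^ b) (incl A P) := fun b => by
    rw [hYdef]
    exact Ops.incl_twA _ _ (hzb b) P
  have hX0 : ∀ b, incl A (X b) ≠ 0 := fun b => by
    rw [hX]
    exact fun h => hQ0 ((twist_eq_zero_iff _ _).1 h)
  have hXzero : incl A (X 0) = incl A Q := by rw [hX, pow_zero, twist_one]
  obtain ⟨Z, hZ⟩ := prod_twist_expand (Finset.range q) X Y (HahnSeries.C (⟨d, hd⟩ : A))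
  -- the norm
  have hN : ∀ b, twist (ζ ^ b) (∏ j ∈ Finset.range q, incl A (X j)) =
      ∏ j ∈ Finset.range q, incl A (X j) := by
    intro b
    simp only [hX]
    exact prod_twist_norm_invariant hζq _ hQ0 b
  -- the linear term is a trace
  obtain ⟨W, hW⟩ : ∃ W : LaurentSeries A, W = P * ∏ j ∈ (Finset.range q).erase 0, X j := ⟨_, rfl⟩
  have hL : incl A (∑ i ∈ Finset.range q, Y i * ∏ j ∈ (Finset.range q).erase i, X j) =
      ∑ b ∈ Finset.range q, twist (ζ ^ b) (incl A W) := by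
    rw [map_sum]
    refine Finset.sum_congr rfl fun b hb => ?_
    rw [hW, map_mul, map_mul, map_mul, hY, map_prod, map_prod]
    congr 1
    apply mul_left_cancel₀ (hX0 b)
    rw [Finset.mul_prod_erase _ (fun j => incl A (X j)) hb]
    conv_lhs => rw [← hN b, ← Finset.mul_prod_erase _ (fun j => incl A (X j)) hq0, map_mul]
    rw [hXzero, ← hX]
  -- division of the trace by `q`
  let L' : LaurentSeries A :=
    { coeff := fun n => if ζ ^ n = 1 then W.coeff n else 0
      isPWO_support' := W.isPWO_support.mono (by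
        intro n hn
        simp only [Function.mem_support, ne_eq, ite_eq_right_iff, Classical.not_imp] at hn
        exact hn.2) }
  have hL' : ∑ i ∈ Finset.range q, Y i * ∏ j ∈ (Finset.range q).erase i, X j =
      HahnSeries.C ((q : ℕ) : A) * L' := by
    apply incl_injective A
    rw [hL]
    ext n
    rw [prod_twist_trace_coeff hζq, map_mul, incl_C, HahnSeries.C_apply,
      HahnSeries.coeff_single_mul, sub_zero, coeff_incl, coeff_incl]
    show _ = _ * (((if ζ ^ n = 1 then W.coeff n else 0 : A)) : Kbar)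
    split_ifs
    · simp
    · simp
  refine ⟨HahnSeries.C e₂ * L' + HahnSeries.C e₁ * Z, ∏ b ∈ Finset.range q, X b, ?_, ?_⟩
  · rw [map_prod, Finset.prod_ne_zero_iff]
    intro b _
    rw [hXdef]
    show red A (Ops.twA (z ^ b) Q) ≠ 0
    rw [Ops.red_twA]
    exact fun h => hQ ((twist_eq_zero_iff _ _).1 h)
  · have hfQ : f * incl A Q = incl A Q + HahnSeries.C d * incl A P := by
      rw [← h1]
      ring
    have hF : (∏ b ∈ Finset.range q, twist (ζ ^ b) f) * incl A (∏ b ∈ Finset.range q, X b) =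
        incl A (∏ i ∈ Finset.range q, (X i + HahnSeries.C (⟨d, hd⟩ : A) * Y i)) := by
      rw [map_prod, map_prod, ← Finset.prod_mul_distrib]
      refine Finset.prod_congr rfl fun b _ => ?_
      rw [map_add, map_mul, incl_C, hX, hY, ← map_mul, hfQ, map_add, map_mul, twist_C]
    rw [sub_mul, one_mul, hF, hZ, hL']
    simp only [map_add, map_mul, map_pow, incl_C]
    have e1 : (HahnSeries.C (((q : ℕ) : A) : Kbar) : LaurentSeries Kbar) =
        HahnSeries.C d' * HahnSeries.C (e₂ : Kbar) := by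
      rw [← map_mul, ← h₂]
      simp
    have e2 : (HahnSeries.C d : LaurentSeries Kbar) =
        HahnSeries.C d' * HahnSeries.C (e₁ : Kbar) := by
      rw [← map_mul, ← h₁]
    rw [e1]
    have e3 : (HahnSeries.C d : LaurentSeries Kbar) ^ 2 =
        HahnSeries.C d * (HahnSeries.C d' * HahnSeries.C (e₁ : Kbar)) := by
      rw [← e2, sq]
    rw [e3]
    ring

end Fermat.Agent.S33.New

end
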