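/-
S33 / S44, block DEEP (owner helper165): `p`-new classes which are `≡ 1` at `v_∞` and `v_0` have
arbitrarily deep representatives at both valuations.
-/
import Fermat.Agent.S33.New.ApproxDeep
import Fermat.Agent.S33.New.Twist

set_option autoImplicit false

noncomputable section

namespace Fermat.Agent.S33.New

open ModularCurve Fermat.Agent.S24 Fermat.Agent.S24.B Fermat.Agent.GAL Fermat.Agent.GAL.E
  Fermat.Agent.C1

variable {M q : ℕ} [NeZero M] [NeZero q]

/-- One half of the step: `nm a = g ^ q` and `w a ≡ 1 mod d` ⇒ `a / α(g) ^ q ≡ 1 mod d d'`.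
(`D.qExpand_nm a`: `g(Q^q)^q = a(Q^q) ∏_b (w a)(ζ^b Q)`; `CongD.prod_twist`, `CongD.inv`,
`CongD.of_qExpand` for `a / α(g)^q ∈ FN (M q)`, `coe_heckeAlphaBar`.) -/
theorem deep_half (D : ALData M q) {A : ValuationSubring Kbar} (hq : q.Prime)
    (hA : A.LiesOverPrime q) {d d' : Kbar} (hd : d ∈ A.nonunits) (hd0 : d ≠ 0) (hd' : d' ∈ A) (hd'0 : d' ≠ 0)
    (e₁ e₂ : A) (h₁ : d = d' * (e₁ : Kbar)) (h₂ : (q : Kbar) = d' * (e₂ : Kbar))
    (a : FN (M * q)) (ha0 : a ≠ 0) (g : FN M) (hg : D.nm a = g ^ q)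
    (hwa : CongD A d ((D.w a : FN (M * q)) : LaurentSeries Kbar)) :
    CongD A (d * d') ((a / (heckeAlphaBar Kbar M q g) ^ q : FN (M * q)) : LaurentSeries Kbar) := by
  have hdA : d ∈ A := by
    rw [ValuationSubring.mem_nonunits_iff] at hd
    exact (A.valuation_le_one_iff d).1 hd.le
  have hdd : d * d' ∈ A.nonunits := by
    rw [ValuationSubring.mem_nonunits_iff] at hd ⊢
    rw [mul_comm, map_mul]
    exact mul_lt_of_le_one_of_lt ((A.valuation_le_one_iff d').2 hd') hd
  have hdd0 : d * d' ≠ 0 := mul_ne_zero hd0 hd'0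
  have hprod := CongD.prod_twist hq hA hdA e₁ e₂ h₁ h₂ hwa
  have hinv := hprod.inv hdd
  refine CongD.of_qExpand hq hA hdd0 _ q ?_
  have hnm := D.qExpand_nm a
  rw [hg] at hnm
  have ha0' : qExpand Kbar q (a : LaurentSeries Kbar) ≠ 0 := by
    intro h0
    apply ha0
    apply Subtype.ext
    exact qExpand_injective q (h0.trans (map_zero (qExpand Kbar q)).symm)
  have e1 : ((a / (heckeAlphaBar Kbar M q g) ^ q : FN (M * q)) : LaurentSeries Kbar) =
      (a : LaurentSeries Kbar) / ((g ^ q : FN M) : LaurentSeries Kbar) := by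
    show (a : LaurentSeries Kbar) /
        ((heckeAlphaBar Kbar M q g : FN (M * q)) : LaurentSeries Kbar) ^ q =
      (a : LaurentSeries Kbar) / (g : LaurentSeries Kbar) ^ q
    rw [coe_heckeAlphaBar]
  rw [e1, map_div₀, hnm, div_mul_cancel_left₀ ha0']
  exact hinv

end Fermat.Agent.S33.New

end
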