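/-
S33 / S44, block DEEP (owner helper165): `p`-new classes which are `≡ 1` at `v_∞` and `v_0` have
arbitrarily deep representatives at both valuations.
-/
import Fermat.Agent.S33.New.DeepHalf

set_option autoImplicit false

noncomputable section

namespace Fermat.Agent.S33.New

open ModularCurve Fermat.Agent.S24 Fermat.Agent.S24.B Fermat.Agent.GAL Fermat.Agent.GAL.E
  Fermat.Agent.C1

/-- a multiple of a nonunit is a nonunit -/
theorem Deep.mul_mem_nonunits {A : ValuationSubring Kbar} {x y : Kbar} (hx : x ∈ A)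
    (hy : y ∈ A.nonunits) : x * y ∈ A.nonunits := by
  rw [A.mem_nonunits_iff] at hy ⊢
  rw [map_mul]
  exact mul_lt_of_le_one_of_lt ((A.valuation_le_one_iff x).mpr hx) hy

theorem Deep.pow_succ_mem_nonunits {A : ValuationSubring Kbar} {x : Kbar} (hx : x ∈ A.nonunits)
    (i : ℕ) : x ^ (i + 1) ∈ A.nonunits := by
  rw [pow_succ]
  exact Deep.mul_mem_nonunits (A.pow_mem (A.nonunits_subset hx) i) hx

/-- two nonzero nonunits have a common divisor which is a nonzero nonunit -/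
theorem Deep.exists_common_dvd {A : ValuationSubring Kbar} {x y : Kbar} (hx : x ∈ A.nonunits)
    (hx0 : x ≠ 0) (hy : y ∈ A.nonunits) (hy0 : y ≠ 0) :
    ∃ z ∈ A.nonunits, z ≠ 0 ∧ (∃ e : A, x = z * (e : Kbar)) ∧ ∃ e : A, y = z * (e : Kbar) := by
  rcases A.mem_or_inv_mem (x / y) with h | h
  · refine ⟨y, hy, hy0, ⟨⟨x / y, h⟩, ?_⟩, ⟨1, by simp⟩⟩
    show x = y * (x / y)
    field_simp
  · refine ⟨x, hx, hx0, ⟨1, by simp⟩, ⟨⟨(x / y)⁻¹, h⟩, ?_⟩⟩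
    show y = x * (x / y)⁻¹
    field_simp

variable {M q : ℕ} [NeZero M] [NeZero q]

/-- The step.  `τ₁ = α(g)⁻¹`, `τ₂ = β(h)⁻¹ = w (α(h)⁻¹)`; `deep_half` for `a` and for `w a`
(`D.w_w`); `exists_approx_deep` for `τ₂ / τ₁` gives `h'`; `t = τ₁ h'`:
`a t^q = (a τ₁^q) h'^q`, `w (a t^q) = (w a / α(h)^q) (w (h' / (τ₂ / τ₁)))^q`. -/
theorem deep_step (D : ALData M q) {A : ValuationSubring Kbar} (hq : q.Prime)
    (hA : A.LiesOverPrime q) {d d' : Kbar} (hd : d ∈ A.nonunits) (hd0 : d ≠ 0) (hd' : d' ∈ A) (hd'0 : d' ≠ 0)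
    (e₁ e₂ : A) (h₁ : d = d' * (e₁ : Kbar)) (h₂ : (q : Kbar) = d' * (e₂ : Kbar))
    (a : FN (M * q)) (g h : FN M) (hg : D.nm a = g ^ q) (hh : D.nm (D.w a) = h ^ q)
    (ha : CongD A d (a : LaurentSeries Kbar))
    (hwa : CongD A d ((D.w a : FN (M * q)) : LaurentSeries Kbar)) :
    ∃ t : FN (M * q), t ≠ 0 ∧ CongD A (d * d') ((a * t ^ q : FN (M * q)) : LaurentSeries Kbar) ∧
      CongD A (d * d') ((D.w (a * t ^ q) : FN (M * q)) : LaurentSeries Kbar) := by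
  have hdd : d * d' ∈ A.nonunits := by
    rw [mul_comm]
    exact Deep.mul_mem_nonunits hd' hd
  have hddA : d * d' ∈ A := A.nonunits_subset hdd
  have hdd0 : d * d' ≠ 0 := mul_ne_zero hd0 hd'0
  have ha0 : a ≠ 0 := by
    rintro rfl
    exact ha.ne_zero hd rfl
  have hwa0 : D.w a ≠ 0 := (map_ne_zero_iff _ D.w_injective).mpr ha0
  have H1 := deep_half D hq hA hd hd0 hd' hd'0 e₁ e₂ h₁ h₂ a ha0 g hg hwa
  have H2 := deep_half D hq hA hd hd0 hd' hd'0 e₁ e₂ h₁ h₂ (D.w a) hwa0 h hh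
    (by rw [D.w_w hq]; exact ha)
  -- nonvanishing
  have hαg : heckeAlphaBar Kbar M q g ≠ 0 := by
    intro h0
    apply H1.ne_zero hdd
    rw [h0, zero_pow hq.ne_zero, div_zero]
    rfl
  have hαh : heckeAlphaBar Kbar M q h ≠ 0 := by
    intro h0
    apply H2.ne_zero hdd
    rw [h0, zero_pow hq.ne_zero, div_zero]
    rfl
  have hβh : heckeBetaBar Kbar M q h ≠ 0 := by
    rw [← D.w_al]
    exact (map_ne_zero_iff _ D.w_injective).mpr hαh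
  set τ₁ : FN (M * q) := (heckeAlphaBar Kbar M q g)⁻¹ with hτ₁
  set τ₂ : FN (M * q) := (heckeBetaBar Kbar M q h)⁻¹ with hτ₂
  have hτ₁0 : τ₁ ≠ 0 := inv_ne_zero hαg
  have hτ₂0 : τ₂ ≠ 0 := inv_ne_zero hβh
  obtain ⟨h', hh'0, C₁, C₂⟩ := exists_approx_deep D hq hA (τ₂ / τ₁) (div_ne_zero hτ₂0 hτ₁0)
    (d * d') hdd hdd0
  refine ⟨τ₁ * h', mul_ne_zero hτ₁0 hh'0, ?_, ?_⟩
  · have key : a * (τ₁ * h') ^ q = a / (heckeAlphaBar Kbar M q g) ^ q * h' ^ q := by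
      rw [hτ₁, mul_pow, inv_pow]
      ring
    rw [key]
    exact H1.mul hddA (C₁.pow hddA q)
  · have key : D.w (a * (τ₁ * h') ^ q) =
        D.w a / (heckeAlphaBar Kbar M q h) ^ q * D.w (h' / (τ₂ / τ₁)) ^ q := by
      have h3 : τ₁ * h' = τ₂ * (h' / (τ₂ / τ₁)) := by
        field_simp
      have h4 : D.w τ₂ = (heckeAlphaBar Kbar M q h)⁻¹ := by
        rw [hτ₂, map_inv₀, D.w_be]
      rw [h3, map_mul, map_pow, map_mul, h4, mul_pow, inv_pow]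
      ring
    rw [key]
    exact H2.mul hddA (C₂.pow hddA q)

/-- **DEEP.**  Induction: `exists_congD_of_cong1` for `u`, `w u`; take `d₀` = the one of `d_u`,
`d_{wu}`, `q` of largest valuation... i.e. a common divisor (`A.mem_or_inv_mem`), nonunit, nonzero;
`deep_step` with `d = d₀ ^ (i + 1)`, `d' = d₀` (newness is inherited: `nm (a t^q) = (g nm t)^q`);
`exists_pow_mul_mem_nonunits` with `c = δ⁻¹` to reach `δ ∣ d₀ ^ i`; `CongD.mono`. -/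
theorem exists_deep (D : ALData M q) {A : ValuationSubring Kbar} (hq : q.Prime)
    (hA : A.LiesOverPrime q) (u : FN (M * q)) (hu : Cong1 A (M * q) u)
    (hwu : Cong1 A (M * q) (D.w u)) (hn₁ : ∃ g : FN M, D.nm u = g ^ q)
    (hn₂ : ∃ h : FN M, D.nm (D.w u) = h ^ q) (δ : Kbar) (hδ : δ ≠ 0) :
    ∃ t : FN (M * q), t ≠ 0 ∧ CongD A δ ((u * t ^ q : FN (M * q)) : LaurentSeries Kbar) ∧
      CongD A δ ((D.w (u * t ^ q) : FN (M * q)) : LaurentSeries Kbar) := by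
  obtain ⟨g, hg⟩ := hn₁
  obtain ⟨h, hh⟩ := hn₂
  obtain ⟨du, hdu, hdu0, Cu⟩ := exists_congD_of_cong1 hq hA hu
  obtain ⟨dw, hdw, hdw0, Cw⟩ := exists_congD_of_cong1 hq hA hwu
  have hqA : (q : Kbar) ∈ A.nonunits := hA
  have hq0 : (q : Kbar) ≠ 0 := by exact_mod_cast hq.ne_zero
  obtain ⟨z, hz, hz0, ⟨a₁, ha₁⟩, ⟨a₂, ha₂⟩⟩ := Deep.exists_common_dvd hdu hdu0 hdw hdw0
  obtain ⟨d₀, hd₀, hd₀0, ⟨b₁, hb₁⟩, ⟨e₂, he₂⟩⟩ := Deep.exists_common_dvd hz hz0 hqA hq0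
  have hd₀A : d₀ ∈ A := A.nonunits_subset hd₀
  have Cu' : CongD A d₀ (u : LaurentSeries Kbar) := (Cu.mono a₁ ha₁).mono b₁ hb₁
  have Cw' : CongD A d₀ ((D.w u : FN (M * q)) : LaurentSeries Kbar) := (Cw.mono a₂ ha₂).mono b₁ hb₁
  have main : ∀ i : ℕ, ∃ t : FN (M * q), t ≠ 0 ∧
      CongD A (d₀ ^ (i + 1)) ((u * t ^ q : FN (M * q)) : LaurentSeries Kbar) ∧
      CongD A (d₀ ^ (i + 1)) ((D.w (u * t ^ q) : FN (M * q)) : LaurentSeries Kbar) := by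
    intro i
    induction i with
    | zero =>
      refine ⟨1, one_ne_zero, ?_, ?_⟩
      · rw [one_pow, mul_one, zero_add, pow_one]
        exact Cu'
      · rw [one_pow, mul_one, zero_add, pow_one]
        exact Cw'
    | succ i ih =>
      obtain ⟨t, ht0, C₁, C₂⟩ := ih
      obtain ⟨t', ht'0, C₁', C₂'⟩ := deep_step D hq hA (d := d₀ ^ (i + 1)) (d' := d₀)
        (Deep.pow_succ_mem_nonunits hd₀ i) (pow_ne_zero _ hd₀0) hd₀A hd₀0
        ⟨d₀ ^ i, A.pow_mem hd₀A i⟩ e₂ (by rw [pow_succ, mul_comm]) he₂ (u * t ^ q)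
        (g * D.nm t) (h * D.nm (D.w t))
        (by rw [map_mul, map_pow, hg, mul_pow])
        (by rw [map_mul, map_pow, map_mul, map_pow, hh, mul_pow]) C₁ C₂
      have key : u * (t * t') ^ q = u * t ^ q * t' ^ q := by
        rw [mul_pow, mul_assoc]
      refine ⟨t * t', mul_ne_zero ht0 ht'0, ?_, ?_⟩
      · rw [key, pow_succ d₀ (i + 1)]
        exact C₁'
      · rw [key, pow_succ d₀ (i + 1)]
        exact C₂'
  obtain ⟨m₀, hm₀⟩ := exists_pow_mul_mem_nonunits hq hA d₀ hd₀ δ⁻¹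
  obtain ⟨t, ht0, C₁, C₂⟩ := main m₀
  have he : d₀ ^ (m₀ + 1) = δ * (δ⁻¹ * d₀ ^ (m₀ + 1)) := by
    rw [mul_inv_cancel_left₀ hδ]
  exact ⟨t, ht0,
    C₁.mono ⟨δ⁻¹ * d₀ ^ (m₀ + 1), A.nonunits_subset (hm₀ _ (Nat.le_succ m₀))⟩ he,
    C₂.mono ⟨δ⁻¹ * d₀ ^ (m₀ + 1), A.nonunits_subset (hm₀ _ (Nat.le_succ m₀))⟩ he⟩

end Fermat.Agent.S33.New

end
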