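/-
S33, NodeNew (chief helper165): reduction of `Mid.NodeNew` to the statement `NodalEQ` delivered by the
nodal core (`Nodal.tor_deep`) : on Kummer units which are deep at `v_∞` and at `v_0`, inertia acts
through the cyclotomic character.
-/
import Fermat.Agent.S33.New.Deep
import Fermat.Agent.S33.Mid.Nodes
import Fermat.Agent.S33.TopAlg

set_option autoImplicit false

noncomputable section

namespace Fermat.Agent.S33.New

open ModularCurve Fermat.Agent.S24 Fermat.Agent.S24.B Fermat.Agent.GAL Fermat.Agent.GAL.E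
  Fermat.Agent.C1 Fermat.Agent.S30 Fermat.Agent.S33.Mid

/-- **What the nodal core has to deliver** (level `M p`, exponent `p`, `ℚ̄`-level). -/
def NodalEQ (M p : ℕ) [NeZero M] [NeZero p] : Prop :=
  ∀ (D : ALData M p) (A : ValuationSubring Kbar), A.LiesOverPrime p → ∀ u : FN (M * p),
    IsKum (M * p) p u → CongD A ((p : Kbar) ^ 2) (u : LaurentSeries Kbar) →
    CongD A ((p : Kbar) ^ 2) ((D.w u : FN (M * p)) : LaurentSeries Kbar) →
    ∀ s : E.GQ, s ∈ A.inertiaSubgroupIn ℚ → ∀ a : ℕ, IsCyc p 1 s a →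
      ∃ v : FN (M * p), galF (M * p) s u = u ^ a * v ^ p

/-- a class killed by the norm has a representative whose norm is a `p`-th power -/
theorem Top.exists_nm_eq_pow {M p : ℕ} [NeZero M] [NeZero p] (D : ALData M p)
    (u₀ : kum (M * p) p) (hn1 : D.nmW p (cls u₀) = 0) :
    ∃ g : FN M, D.nm ((u₀ : (FN (M * p))ˣ) : FN (M * p)) = g ^ p := by
  have h1 : D.nmW p (cls u₀) =
      cls ⟨Units.map D.nm (u₀ : (FN (M * p))ˣ), D.isKum_nm p _ u₀.2⟩ := mapW₂_cls _ _ u₀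
  rw [h1, cls_eq_zero_iff, mem_pows] at hn1
  obtain ⟨g, hg⟩ := hn1
  refine ⟨(g : FN M), ?_⟩
  have h2 := congrArg (fun z : (FN M)ˣ => (z : FN M)) hg
  rw [← Units.val_pow_eq_pow_val]
  exact h2.symm

theorem Top.exists_nm_w_eq_pow {M p : ℕ} [NeZero M] [NeZero p] (D : ALData M p)
    (u₀ : kum (M * p) p) (hn2 : D.nmW p (D.wW p (cls u₀)) = 0) :
    ∃ g : FN M, D.nm (D.w ((u₀ : (FN (M * p))ˣ) : FN (M * p))) = g ^ p := by
  have h0 : D.wW p (cls u₀) = cls ⟨Units.map ((D.w : FN (M * p) →+* FN (M * p)) :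
      FN (M * p) →* FN (M * p)) (u₀ : (FN (M * p))ˣ), D.isKum_w p _ u₀.2⟩ := mapW₂_cls _ _ u₀
  rw [h0] at hn2
  exact Top.exists_nm_eq_pow D _ hn2

/-- from the relation on a representative (modified by a `p`-th power) to the class -/
theorem Top.rho_cls_eq_nsmul {N p : ℕ} (u₀ : kum N p) (s : E.GQ) (a : ℕ) (t v : FN N)
    (ht0 : t ≠ 0)
    (hv : galF N s (((u₀ : (FN N)ˣ) : FN N) * t ^ p) =
      (((u₀ : (FN N)ˣ) : FN N) * t ^ p) ^ a * v ^ p) :
    rho N p s (cls u₀) = a • cls u₀ := by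
  rw [rho_cls, ← cls_pow]
  have h0 : cls ((⟨galU N s (u₀ : (FN N)ˣ),
      galU_mem_kum s (u₀ : (FN N)ˣ) u₀.2⟩ : kum N p) * (u₀ ^ a)⁻¹) = 0 := by
    rw [cls_eq_zero_iff]
    apply mem_pows_of_eq_pow (w := t ^ a * v / galF N s t)
    simp only [Subgroup.coe_mul, Units.val_mul, InvMemClass.coe_inv, Units.val_inv_eq_inv_val,
      SubmonoidClass.coe_pow, Units.val_pow_eq_pow_val, coe_galU]
    have hT : galF N s t ≠ 0 := by
      intro h
      exact ht0 ((map_eq_zero_iff _ (galF N s).injective).1 h)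
    have hU0 : ((u₀ : (FN N)ˣ) : FN N) ≠ 0 := Units.ne_zero _
    have hv' : galF N s ((u₀ : (FN N)ˣ) : FN N) * galF N s t ^ p =
        ((u₀ : (FN N)ˣ) : FN N) ^ a * (t ^ a * v) ^ p := by
      rw [← map_pow, ← map_mul, hv]
      ring
    rw [div_pow, eq_div_iff (pow_ne_zero _ hT), mul_right_comm, hv']
    field_simp
  rw [cls_mul, cls_inv] at h0
  exact add_neg_eq_zero (G := W N p).1 h0

/-- `x = cls u` with `Cong1 u`, `Cong1 (w u)` (`IsTor`); `nmW x = 0` ⇒ `nm u = g ^ p`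
(`mapW₂_cls`, `cls_eq_zero_iff`, `mem_pows`), same for `w u`; `exists_deep` with `δ = p ^ 2` gives
`t`; `u' = u t ^ p` is a Kummer unit with `cls u' = x`; `NodalEQ` gives `rho s x = a • x`
(`rho_cls`, `cls_pow`, `cls_mul`); with `rho s x = x`, `p • x = 0` (`nsmul_W`), `a ≢ 1`: `x = 0`
(`S33.eq_zero_of_nsmul_eq` in TopAlg or `Mid.mem_of_nsmul_sub_mem` with `K' = ⊥`). -/
theorem nodeNew_of_nodalEQ {M p : ℕ} [NeZero M] [NeZero p] (hp : p.Prime) (h : NodalEQ M p) :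
    NodeNew M p := by
  intro D A hA x hTor hn1 hn2 s hs a ha hne hfix
  obtain ⟨u₀, rfl, c1, c2⟩ := hTor
  have hp0 : ((p : Kbar) ^ 2) ≠ 0 := pow_ne_zero _ (Nat.cast_ne_zero.2 hp.ne_zero)
  obtain ⟨t, ht0, d1, d2⟩ := exists_deep D hp hA _ c1 c2 (Top.exists_nm_eq_pow D u₀ hn1)
    (Top.exists_nm_w_eq_pow D u₀ hn2) _ hp0
  have hK : IsKum (M * p) p (((u₀ : (FN (M * p))ˣ) : FN (M * p)) * t ^ p) :=
    IsKum.mul u₀.2 (isKum_pow_self _ _ t)
  obtain ⟨v, hv⟩ := h D A hA _ hK d1 d2 s hs a ha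
  have key := Top.rho_cls_eq_nsmul u₀ s a t v ht0 hv
  exact S33.eq_zero_of_nsmul_eq (W := W (M * p) p) hp hne (x := cls u₀) (nsmul_W (cls u₀))
    (key.symm.trans hfix)

end Fermat.Agent.S33.New

end
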